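import Fermat.Agent.ZEC.Odd
import Fermat.Agent.ZThm.Count
import Mathlib.NumberTheory.NumberField.Basic

/-!
# The field `ℚ(√-N)` inside the algebraic numbers
-/

set_option autoImplicit false

open Module NumberField

namespace Fermat.Agent.ZPsi

local notation "Qb" => AlgebraicClosure ℚ
local notation "GQ" => AlgebraicClosure ℚ ≃ₐ[ℚ] AlgebraicClosure ℚ

theorem exists_sN (N : ℕ) : ∃ δ : Qb, δ ^ 2 = -(N : Qb) :=
  IsAlgClosed.exists_pow_nat_eq _ two_pos

/-- a square root of `-N` -/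
noncomputable def sN (N : ℕ) : Qb := Classical.choose (exists_sN N)

theorem sN_sq (N : ℕ) : sN N ^ 2 = -(N : Qb) := Classical.choose_spec (exists_sN N)

/-- `ℚ(√-N)` -/
noncomputable def KN (N : ℕ) : IntermediateField ℚ Qb := IntermediateField.adjoin ℚ {sN N}

theorem sN_mem (N : ℕ) : sN N ∈ KN N :=
  IntermediateField.subset_adjoin ℚ _ (Set.mem_singleton _)

theorem mem_fix (N : ℕ) (g : GQ) : g ∈ (KN N).fixingSubgroup ↔ g (sN N) = sN N := by
  constructor
  · intro h
    exact (IntermediateField.mem_fixingSubgroup_iff _ _).1 h _ (sN_mem N)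
  · intro h
    have h1 : KN N ≤ IntermediateField.fixedField (Subgroup.zpowers g) := by
      rw [KN, IntermediateField.adjoin_le_iff, Set.singleton_subset_iff]
      rintro ⟨_, n, rfl⟩
      show (g ^ n) (sN N) = sN N
      have h2 : ∀ n : ℤ, (g ^ n) (sN N) = sN N := by
        intro n
        have h3 : g ∈ MulAction.stabilizer GQ (sN N) := h
        exact (MulAction.stabilizer GQ (sN N)).zpow_mem h3 n
      exact h2 n
    rw [IntermediateField.mem_fixingSubgroup_iff]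
    intro x hx
    exact h1 hx ⟨g, Subgroup.mem_zpowers g⟩

theorem sN_cases (N : ℕ) (g : GQ) : g (sN N) = sN N ∨ g (sN N) = -sN N := by
  apply sq_eq_sq_iff_eq_or_eq_neg.1
  rw [← map_pow, sN_sq, map_neg, map_natCast]

section pos

variable {N : ℕ} (hN : N ≠ 0)

include hN

theorem sN_ne_zero : sN N ≠ 0 := by
  intro h
  have h1 := sN_sq N
  rw [h, zero_pow two_ne_zero, zero_eq_neg] at h1
  exact hN (by exact_mod_cast h1)

theorem sN_ne_neg : sN N ≠ -sN N := by
  intro h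
  apply sN_ne_zero hN
  have h2 : (2 : Qb) * sN N = 0 := by linear_combination h
  exact (mul_eq_zero.mp h2).resolve_left two_ne_zero

theorem sN_notMem : sN N ∉ (⊥ : IntermediateField ℚ Qb) := by
  intro h
  obtain ⟨r, hr⟩ := IntermediateField.mem_bot.1 h
  have h1 : r ^ 2 = -(N : ℚ) := by
    apply (algebraMap ℚ Qb).injective
    rw [map_pow, hr, sN_sq, map_neg, map_natCast]
  have h2 : (0 : ℚ) < N := by exact_mod_cast Nat.pos_of_ne_zero hN
  have h3 := sq_nonneg r
  rw [h1] at h3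
  linarith

end pos

theorem isIntegral_sN (N : ℕ) : IsIntegral ℤ (sN N) := by
  refine ⟨Polynomial.X ^ 2 - Polynomial.C (-(N : ℤ)), Polynomial.monic_X_pow_sub_C _ two_ne_zero, ?_⟩
  rw [Polynomial.eval₂_sub, Polynomial.eval₂_pow, Polynomial.eval₂_X, Polynomial.eval₂_C, sN_sq]
  simp

instance finiteDimensional_KN (N : ℕ) : FiniteDimensional ℚ (KN N) :=
  IntermediateField.adjoin.finiteDimensional ((isIntegral_sN N).tower_top)

instance numberField_KN (N : ℕ) : NumberField (KN N) := ⟨⟩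

theorem finrank_KN {N : ℕ} (hN : N ≠ 0) : finrank ℚ (KN N) = 2 := by
  have h1 : IsIntegral ℚ (sN N) := (isIntegral_sN N).tower_top
  have h2 : finrank ℚ (KN N) = (minpoly ℚ (sN N)).natDegree :=
    IntermediateField.adjoin.finrank h1
  have h3 : minpoly ℚ (sN N) ∣ Polynomial.X ^ 2 - Polynomial.C (-(N : ℚ)) := by
    apply minpoly.dvd
    rw [map_sub, map_pow, Polynomial.aeval_X, Polynomial.aeval_C, sN_sq, map_neg, map_natCast,
      sub_self]
  have h4 : (minpoly ℚ (sN N)).natDegree ≤ 2 := by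
    have := Polynomial.natDegree_le_of_dvd h3
      (Polynomial.monic_X_pow_sub_C _ two_ne_zero).ne_zero
    rwa [Polynomial.natDegree_X_pow_sub_C] at this
  have h5 : (minpoly ℚ (sN N)).natDegree ≠ 1 := by
    intro h
    apply sN_notMem hN
    have h6 := (minpoly.natDegree_eq_one_iff).1 h
    exact IntermediateField.mem_bot.2 h6
  have h7 := minpoly.natDegree_pos h1
  omega

/-- `√-N` as an algebraic integer -/
noncomputable def lamN (N : ℕ) : 𝓞 (KN N) :=
  ⟨⟨sN N, sN_mem N⟩, by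
    rw [mem_integralClosure_iff]
    have h := isIntegral_sN N
    exact (isIntegral_algHom_iff ((KN N).val.restrictScalars ℤ) (KN N).val.injective).1 h⟩

theorem lamN_coe (N : ℕ) : ((lamN N : KN N) : Qb) = sN N := rfl

theorem lamN_sq (N : ℕ) : lamN N ^ 2 = -(N : 𝓞 (KN N)) := by
  apply RingOfIntegers.ext
  apply Subtype.ext
  have e1 : ((algebraMap (𝓞 (KN N)) (KN N) (lamN N ^ 2) : KN N) : Qb) = sN N ^ 2 := by
    rw [map_pow]; rfl
  have e2 : ((algebraMap (𝓞 (KN N)) (KN N) (-(N : 𝓞 (KN N))) : KN N) : Qb) = -(N : Qb) := by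
    rw [map_neg, map_natCast]
    push_cast
    rfl
  exact e1.trans ((sN_sq N).trans e2.symm)

theorem index_KN {N : ℕ} (hN : N ≠ 0) : (KN N).fixingSubgroup.index = 2 := by
  rw [Subgroup.index_eq_two_iff]
  obtain ⟨a, ha⟩ : ∃ a : GQ, a (sN N) = -sN N := by
    by_contra hcon
    push Not at hcon
    apply sN_notMem hN
    rw [IntermediateField.mem_bot]
    exact (InfiniteGalois.mem_range_algebraMap_iff_fixed (k := ℚ) (K := Qb) (sN N)).mpr
      fun g => (sN_cases N g).resolve_right (hcon g)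
  refine ⟨a, fun b => ?_⟩
  have e : (b * a) (sN N) = - b (sN N) := by
    show b (a (sN N)) = _
    rw [ha, map_neg]
  rw [mem_fix, mem_fix, e]
  rcases sN_cases N b with h | h
  · rw [h]
    exact Or.inr ⟨rfl, fun h1 => sN_ne_neg hN h1.symm⟩
  · rw [h]
    exact Or.inl ⟨neg_neg _, fun h1 => sN_ne_neg hN h1.symm⟩

section EC

variable (E : WeierstrassCurve ℚ) [E.IsElliptic] {W : WeierstrassCurve ℤ}
  (hWE : W.IsIntegralModelOf E) (hΔ : W.Δ < 0)
  (hodd : ∀ l : ℕ, l.Prime → (l : ℤ) ∣ W.Δ → Odd (padicValInt l W.Δ))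
  {N : ℕ} (hNsq : Squarefree N) (hN : ∀ l : ℕ, l.Prime → (l ∣ N ↔ (l : ℤ) ∣ W.Δ))

theorem cube_iff : ∀ m : Matrix (Fin 2) (Fin 2) (ZMod 2), m.det = 1 →
    (m ^ 3 = 1 ↔ ZThm.eM m = 0) := by
  decide +kernel

include hWE hΔ hodd hNsq hN

theorem fix_iff_cube (g : GQ) : g ∈ (KN N).fixingSubgroup ↔ (ZEC.rbE E g) ^ 3 = 1 := by
  rw [mem_fix]
  refine (ZEC.rbE_cube_iff E hWE hΔ hodd (δ := sN N) ?_ g).1
  rw [sN_sq]
  have h1 : N.primeFactors = W.Δ.natAbs.primeFactors := by
    ext p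
    rw [Nat.mem_primeFactors, Nat.mem_primeFactors]
    constructor
    · rintro ⟨h2, h3, -⟩
      exact ⟨h2, Int.natCast_dvd.1 ((hN p h2).1 h3), Int.natAbs_ne_zero.mpr hΔ.ne⟩
    · rintro ⟨h2, h3, -⟩
      exact ⟨h2, (hN p h2).2 (Int.natCast_dvd.2 h3), hNsq.ne_zero⟩
  rw [← h1, Nat.prod_primeFactors_of_squarefree hNsq]

/-- `ℚ(√-N)` is the fixed field of the even permutations of the `2`-torsion. -/
theorem fix_iff_even (hdet : ∀ g, (ZEC.rbE E g).det = 1) (g : GQ) :
    g ∈ (KN N).fixingSubgroup ↔ g ∈ ZThm.evenSub (ZEC.rbE E) hdet := by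
  rw [fix_iff_cube E hWE hΔ hodd hNsq hN, ZThm.mem_evenSub, cube_iff _ (hdet g)]

theorem fix_eq_even (hdet : ∀ g, (ZEC.rbE E g).det = 1) :
    (KN N).fixingSubgroup = ZThm.evenSub (ZEC.rbE E) hdet :=
  Subgroup.ext fun g => fix_iff_even E hWE hΔ hodd hNsq hN hdet g

end EC

end Fermat.Agent.ZPsi
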