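import Fermat.Agent.ZPsi.Theta
import Fermat.Agent.ZCm.ClAlg
import Fermat.Agent.Cheb.Exist

/-!
# Z-PSI: the cubic class group character attached to the `2`-torsion
-/

set_option autoImplicit false

open Module NumberField
open scoped Pointwise nonZeroDivisors

namespace Fermat.Agent.ZPsi

open Fermat.Agent.ZThm (M2)
open Fermat.Agent.ZEC (rbE)

local notation "Qb" => AlgebraicClosure ℚ
local notation "GQ" => AlgebraicClosure ℚ ≃ₐ[ℚ] AlgebraicClosure ℚ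

section place

variable {K : IntermediateField ℚ Qb}

/-- the integers of `K` inside the algebraic numbers -/
noncomputable def jK (K : IntermediateField ℚ Qb) : 𝓞 K →+* Qb :=
  (algebraMap K Qb).comp (algebraMap (𝓞 K) K)

theorem jK_apply (x : 𝓞 K) : jK K x = ((x : K) : Qb) := rfl

theorem jK_injective : Function.Injective (jK K) :=
  (algebraMap K Qb).injective.comp (RingOfIntegers.coe_injective)

theorem jK_mem (A : ValuationSubring Qb) (x : 𝓞 K) : jK K x ∈ A := by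
  apply Frob.mem_of_isIntegral
  exact (RingOfIntegers.isIntegral_coe x).map (algebraMap K Qb).toIntAlgHom

/-- every maximal ideal is induced by a place -/
theorem exists_place {I : Ideal (𝓞 K)} (hI : I.IsMaximal) {l : ℕ} (hl : (l : 𝓞 K) ∈ I) :
    ∃ A : ValuationSubring Qb, A.LiesOverPrime l ∧
      ∀ x : 𝓞 K, x ∈ I ↔ ((x : K) : Qb) ∈ A.nonunits := by
  let e : 𝓞 K ≃+* (jK K).range := RingEquiv.ofBijective (jK K).rangeRestrict
    ⟨fun a b h => by
        have h1 := congrArg Subtype.val h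
        exact jK_injective h1,
      (jK K).rangeRestrict_surjective⟩
  let I' : Ideal (jK K).range := I.comap (e.symm : (jK K).range →+* 𝓞 K)
  have hI' : I' ≠ ⊤ := Ideal.comap_ne_top _ hI.ne_top
  obtain ⟨V, -, hV⟩ := Ideal.image_subset_nonunits_valuationSubring I' hI'
  have h1 : ∀ x ∈ I, jK K x ∈ V.nonunits := by
    intro x hx
    refine hV ⟨e x, ?_, rfl⟩
    show e.symm (e x) ∈ I
    rw [e.symm_apply_apply]
    exact hx
  refine ⟨V, ?_, fun x => ⟨h1 x, fun hx => ?_⟩⟩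
  · have h2 := h1 _ hl
    rw [map_natCast] at h2
    exact h2
  · by_contra hxI
    obtain ⟨y, c, hc, hyc⟩ := hI.exists_inv hxI
    have h3 : jK K y * jK K x + jK K c = 1 := by rw [← map_mul, ← map_add, hyc, map_one]
    have h4 : V.valuation (jK K y) ≤ 1 := (V.valuation_le_one_iff _).2 (jK_mem V y)
    have h5 : V.valuation (jK K x) < 1 := (ValuationSubring.mem_nonunits_iff V).1 hx
    have h6 : V.valuation (jK K c) < 1 := (ValuationSubring.mem_nonunits_iff V).1 (h1 c hc)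
    have h7 : V.valuation (jK K y * jK K x) < 1 := by
      rw [map_mul, mul_comm]
      exact mul_lt_one_of_lt_of_le h5 h4
    have h8 := val_add_lt h7 h6
    rw [h3, map_one] at h8
    exact lt_irrefl _ h8

/-- the ideal of a place -/
noncomputable def plI (K : IntermediateField ℚ Qb) (A : ValuationSubring Qb) : Ideal (𝓞 K) :=
  (IsLocalRing.maximalIdeal A).comap ((jK K).codRestrict A (jK_mem A))

theorem mem_plI (A : ValuationSubring Qb) (x : 𝓞 K) :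
    x ∈ plI K A ↔ ((x : K) : Qb) ∈ A.nonunits := by
  rw [plI, Ideal.mem_comap, ← A.coe_mem_nonunits_iff]
  rfl

theorem plI_ne_bot [NumberField K] {A : ValuationSubring Qb} {l : ℕ} (hl : l.Prime)
    (hA : A.LiesOverPrime l) : plI K A ≠ ⊥ := by
  intro h
  have h1 : (l : 𝓞 K) ∈ plI K A := by
    rw [mem_plI]
    have : (((l : 𝓞 K) : K) : Qb) = (l : Qb) := map_natCast (jK K) l
    rw [this]
    exact hA
  rw [h, Ideal.mem_bot] at h1
  exact hl.ne_zero (by exact_mod_cast h1)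

/-- elements are fixed by Frobenius modulo a degree one place -/
theorem pow_sub_mem [NumberField K] {I : Ideal (𝓞 K)} (hI : I.IsMaximal) {l : ℕ}
    (h : Ideal.absNorm I = l) (x : 𝓞 K) : x ^ l - x ∈ I := by
  let _ : Field (𝓞 K ⧸ I) := Ideal.Quotient.field I
  have h1 : Nat.card (𝓞 K ⧸ I) = l := by
    rw [← h, Ideal.absNorm_apply, Submodule.cardQuot_apply]
  have h0 : I ≠ ⊥ := hI.ne_bot_of_isIntegral_int
  have : Finite (𝓞 K ⧸ I) := Ideal.finiteQuotientOfFreeOfNeBot I h0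
  have : Fintype (𝓞 K ⧸ I) := Fintype.ofFinite _
  rw [← Ideal.Quotient.eq, map_pow, ← h1, Nat.card_eq_fintype_card]
  exact FiniteField.pow_card _

end place

section EC

variable (E : WeierstrassCurve ℚ) [E.IsElliptic] {W : WeierstrassCurve ℤ}
  (hWE : W.IsIntegralModelOf E) (hΔ : W.Δ < 0)
  (hodd : ∀ l : ℕ, l.Prime → (l : ℤ) ∣ W.Δ → Odd (padicValInt l W.Δ)) (h2 : (2 : ℤ) ∣ W.Δ)
  {N : ℕ} (hNsq : Squarefree N) (hN : ∀ l : ℕ, l.Prime → (l ∣ N ↔ (l : ℤ) ∣ W.Δ))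

theorem rbE_trace_conj (g s : GQ) : (rbE E (g * s * g⁻¹)).trace = (rbE E s).trace := by
  rw [map_mul, map_mul, Matrix.trace_mul_comm, ← mul_assoc, ← map_mul, inv_mul_cancel, map_one,
    one_mul]

include h2 hN in
theorem ne_two {l : ℕ} (hlN : ¬ l ∣ N) : l ≠ 2 := by
  rintro rfl
  exact hlN ((hN 2 Nat.prime_two).2 (by exact_mod_cast h2))

include hWE hΔ hodd h2 hNsq hN

/-- the sign of a Frobenius element -/
theorem frob_cube_iff {l : ℕ} (hl : l.Prime) (hlN : ¬ l ∣ N) {A : ValuationSubring Qb}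
    (hA : A.LiesOverPrime l) {Φ : GQ} (hΦ : A.IsFrobeniusAt Φ l) :
    (rbE E Φ) ^ 3 = 1 ↔ IsSquare (-(N : ZMod l)) := by
  rw [← fix_iff_cube E hWE hΔ hodd hNsq hN, mem_fix,
    frob_sqrt (n := -(N : ℤ)) hl (ne_two h2 hN hlN) (by
      rw [dvd_neg]
      exact_mod_cast hlN) hA hΦ (by rw [sN_sq]; push_cast; rfl)]
  push_cast
  rfl

/-- **(ii)** -/
theorem trace_eq_zero {l : ℕ} (hl : l.Prime) (hlN : ¬ l ∣ N) (hsq : ¬ IsSquare (-(N : ZMod l)))
    {A : ValuationSubring Qb} (hA : A.LiesOverPrime l) {Φ : GQ} (hΦ : A.IsFrobeniusAt Φ l) :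
    (rbE E Φ).trace = 0 :=
  trace_ncube _ (ZEC.rbE_det E Φ) fun h =>
    hsq ((frob_cube_iff E hWE hΔ hodd h2 hNsq hN hl hlN hA hΦ).1 h)

/-- **(iii)** -/
theorem not_isSquare {q : ℕ} (hq : q.Prime) (hqN : ¬ q ∣ N) {A : ValuationSubring Qb}
    (hA : A.LiesOverPrime q) {Φ : GQ} (hΦ : A.IsFrobeniusAt Φ q) (h1 : rbE E Φ ≠ 1)
    (ht : (rbE E Φ).trace = 0) : ¬ IsSquare (-(N : ZMod q)) := by
  intro h
  have h3 := (frob_cube_iff E hWE hΔ hodd h2 hNsq hN hq hqN hA hΦ).2 h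
  rw [trace_cube _ h3, if_neg h1] at ht
  exact one_ne_zero ht

omit hWE hΔ hodd h2 hNsq hN in
/-- the element of the group acts in the same way as a Frobenius element -/
theorem exists_frob_rbE (L : IntermediateField ℚ Qb) (hL : FiniteDimensional ℚ L) (g : GQ)
    (S : Finset ℕ) : ∃ l : ℕ, l.Prime ∧ l ∉ S ∧ ∃ A : ValuationSubring Qb, A.LiesOverPrime l ∧
      ∃ Φ, A.IsFrobeniusAt Φ l ∧ rbE E Φ = rbE E g ∧ ∀ x ∈ L, Φ x = g x := by
  obtain ⟨L', hL', h⟩ := ZEC.rbE_smooth E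
  obtain ⟨l, hl, hlS, -, A, hA, Φ, hΦ, hΦg⟩ := Cheb.exists_frobenius_eq (L ⊔ L')
    (IntermediateField.finiteDimensional_sup L L') g S
  refine ⟨l, hl, hlS, A, hA, Φ, hΦ, ?_, fun x hx => hΦg x (le_sup_left (α := IntermediateField ℚ Qb)
    hx)⟩
  have h1 : rbE E (g⁻¹ * Φ) = 1 := by
    apply h
    intro x hx
    show g⁻¹ (Φ x) = x
    rw [hΦg x (le_sup_right (α := IntermediateField ℚ Qb) hx)]
    exact g.symm_apply_apply x
  have e : Φ = g * (g⁻¹ * Φ) := by group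
  rw [e, map_mul, h1, mul_one]

variable (hss : ∀ l : ℕ, l.Prime → (l : ℤ) ∣ W.Δ → ¬ (l : ℤ) ∣ W.c₄)
  (hnr : ∀ x : ℚ, 4 * x ^ 3 + (W.b₂ : ℚ) * x ^ 2 + 2 * (W.b₄ : ℚ) * x + (W.b₆ : ℚ) ≠ 0)

omit h2 hNsq hN hodd in
include hnr in
theorem exists_trace_one : ∃ g : GQ, (rbE E g) ^ 3 = 1 ∧ rbE E g ≠ 1 ∧ (rbE E g).trace = 1 := by
  obtain ⟨g, hg⟩ := ZEC.rbE_surjective E hWE hnr (M := !![0, 1; 1, 1]) (by
    rintro ⟨r, hr⟩
    have h3 : ((W.Δ : ℤ) : ℚ) < 0 := by exact_mod_cast hΔ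
    have h4 : 0 ≤ r * r := mul_self_nonneg r
    linarith) (by decide)
  refine ⟨g, ?_, ?_, ?_⟩
  · rw [hg]; decide
  · rw [hg]; decide
  · rw [hg]; decide

include hss hnr in
/-- **Z-PSI (i)**: the cubic character of the class group. -/
theorem exists_psi : ∃ psi : ClassGroup (𝓞 (KN N)) →* Multiplicative (ZMod 3),
    Function.Surjective psi ∧
    ∀ l : ℕ, l.Prime → ¬ l ∣ N → ∀ A : ValuationSubring Qb, A.LiesOverPrime l →
      ∀ Φ, A.IsFrobeniusAt Φ l → ∀ I : (Ideal (𝓞 (KN N)))⁰,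
        Ideal.absNorm (I : Ideal (𝓞 (KN N))) = l →
        (rbE E Φ).trace = ZCm.t psi (ClassGroup.mk0 I) := by
  have hN0 : N ≠ 0 := hNsq.ne_zero
  obtain ⟨psi, hpsi⟩ := CFR.exists_psi (p := 3) (K := KN N) (by decide) (index_KN hN0)
    (thE E hWE hΔ hodd hNsq hN) (thE_smooth E hWE hΔ hodd hNsq hN)
    (thE_unr E hWE hΔ hodd hNsq hN hss h2) (thE_dih E hWE hΔ hodd hNsq hN)
  refine ⟨psi, ?_, ?_⟩
  · -- surjectivity
    obtain ⟨g, hg3, hg1, -⟩ := exists_trace_one E hWE hΔ hnr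
    obtain ⟨l, hl, -, A, hA, Φ, hΦ, hΦg, -⟩ := exists_frob_rbE E ⊥ inferInstance g ∅
    rw [← hΦg] at hg3 hg1
    have hΦK := (fix_iff_cube E hWE hΔ hodd hNsq hN Φ).2 hg3
    have h1 := hpsi l hl A hA Φ hΦ hΦK ⟨plI (KN N) A, mem_nonZeroDivisors_of_ne_zero
      (plI_ne_bot hl hA)⟩ (fun x => mem_plI A x)
    obtain ⟨c, h3⟩ : ∃ c, psi c ≠ 1 := ⟨_, by
      rw [h1, Ne, thE_eq_one]
      exact hg1⟩
    intro y
    have key : ∀ x y : ZMod 3, x ≠ 0 → y = 0 ∨ y = x ∨ y = x + x := by decide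
    rcases key (Multiplicative.toAdd (psi c)) (Multiplicative.toAdd y) (by
      intro h
      exact h3 (toAdd_eq_zero.1 h)) with h | h | h
    · exact ⟨1, by rw [map_one]; exact (toAdd_eq_zero.1 h).symm⟩
    · exact ⟨c, Multiplicative.toAdd.injective h.symm⟩
    · refine ⟨c * c, Multiplicative.toAdd.injective ?_⟩
      rw [map_mul, toAdd_mul, h]
  · intro l hl hlN A hA Φ hΦ I hI
    have hprime : (I : Ideal (𝓞 (KN N))).IsPrime :=
      Ideal.isPrime_of_irreducible_absNorm (by rw [hI]; exact hl)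
    have hI0 : (I : Ideal (𝓞 (KN N))) ≠ ⊥ := nonZeroDivisors.ne_zero I.2
    have hmax : (I : Ideal (𝓞 (KN N))).IsMaximal := hprime.isMaximal hI0
    have hlI : (l : 𝓞 (KN N)) ∈ (I : Ideal (𝓞 (KN N))) := by
      have := Ideal.absNorm_mem (I : Ideal (𝓞 (KN N)))
      rwa [hI] at this
    obtain ⟨A', hA', hplace⟩ := exists_place hmax hlI
    obtain ⟨g, rfl⟩ := Frob.exists_smul_eq hl hA hA'
    have hΦ' := CFR.frob_conj hΦ g
    obtain ⟨hΦA, hΦ1⟩ := (CFR.isFrobeniusAt_iff _ _ l).1 hΦ'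
    -- `Φ'` fixes `√-N`
    have hK : g * Φ * g⁻¹ ∈ (KN N).fixingSubgroup := by
      rw [mem_fix]
      refine (sN_cases N _).resolve_right fun hneg => ?_
      have e1 := (hplace _).1 (pow_sub_mem hmax hI (lamN N))
      have e2 : (((lamN N ^ l - lamN N : 𝓞 (KN N)) : KN N) : Qb) = sN N ^ l - sN N := by
        have : jK (KN N) (lamN N ^ l - lamN N) = sN N ^ l - sN N := by
          rw [map_sub, map_pow]; rfl
        exact this
      rw [e2, ValuationSubring.mem_nonunits_iff] at e1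
      have hsA : sN N ∈ g • A := Frob.mem_of_isIntegral _ (isIntegral_sN N)
      have e3 := hΦ1 _ hsA
      rw [ValuationSubring.mem_nonunits_iff, hneg] at e3
      have e4 := val_add_lt e3 e1
      have e5 : -sN N - sN N ^ l + (sN N ^ l - sN N) = -(2 * sN N) := by ring
      rw [e5, Valuation.map_neg] at e4
      have e6 : (g • A).valuation (((-(4 * N) : ℤ)) : Qb) < 1 := by
        have e7 : (((-(4 * N) : ℤ)) : Qb) = (2 * sN N) * (2 * sN N) := by
          have := sN_sq N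
          push_cast
          linear_combination (-4) * this
        rw [e7, map_mul]
        exact mul_lt_one_of_lt_of_le e4 e4.le
      rw [val_lt_one_iff hl hA', dvd_neg] at e6
      have e8 : l ∣ 4 * N := by exact_mod_cast e6
      rcases (Nat.Prime.dvd_mul hl).1 e8 with h | h
      · have : l ∣ 2 := hl.dvd_of_dvd_pow (n := 2) (by norm_num; exact h)
        exact ne_two h2 hN hlN ((Nat.prime_dvd_prime_iff_eq hl Nat.prime_two).1 this)
      · exact hlN h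
    have h1 := hpsi l hl _ hA' _ hΦ' hK I hplace
    rw [ZCm.t, h1, ← rbE_trace_conj E g Φ, trace_cube _
      ((fix_iff_cube E hWE hΔ hodd hNsq hN _).1 hK)]
    simp only [thE_eq_one]

omit hodd in
include hnr in
/-- **Z-PSI (iv)**, without condition at `Q` -/
theorem exists_prime_trace_one (S : Finset ℕ) : ∃ l : ℕ, l.Prime ∧ l ∉ S ∧ ¬ l ∣ N ∧ l ≠ 2 ∧
    ∃ A : ValuationSubring Qb, A.LiesOverPrime l ∧
      ∃ Φ, A.IsFrobeniusAt Φ l ∧ (rbE E Φ).trace = 1 := by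
  obtain ⟨g, -, -, hg⟩ := exists_trace_one E hWE hΔ hnr
  obtain ⟨l, hl, hlS, A, hA, Φ, hΦ, hΦg, -⟩ := exists_frob_rbE E ⊥ inferInstance g
    (S ∪ N.primeFactors)
  rw [Finset.mem_union, not_or, Nat.mem_primeFactors] at hlS
  have hlN : ¬ l ∣ N := fun h => hlS.2 ⟨hl, h, hNsq.ne_zero⟩
  exact ⟨l, hl, hlS.1, hlN, ne_two h2 hN hlN, A, hA, Φ, hΦ, by rw [hΦg, hg]⟩

omit hΔ hodd hNsq in
/-- inertia at an auxiliary prime moves the square root -/
theorem exists_move {Q : Finset ℕ} (hQ : Q.Nonempty) (hQp : ∀ q ∈ Q, q.Prime ∧ ¬ q ∣ N)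
    (hN0 : N ≠ 0) {δ : Qb} (hδ : δ ^ 2 = ((-((N * ∏ q ∈ Q, q : ℕ) : ℤ) : ℤ) : Qb)) :
    ∃ s : GQ, rbE E s = 1 ∧ s δ = -δ := by
  obtain ⟨q, hqQ⟩ := hQ
  obtain ⟨hq, hqN⟩ := hQp q hqQ
  have : Fact q.Prime := ⟨hq⟩
  obtain ⟨A, hA⟩ := Frob.exists_liesOverPrime Qb hq
  have hvq : A.valuation (q : Qb) < 1 := A.mem_nonunits_iff.mp hA
  set M : ℕ := N * ∏ q ∈ Q, q with hM
  have hM0 : M ≠ 0 := mul_ne_zero hN0 (Finset.prod_ne_zero_iff.2 fun p hp => (hQp p hp).1.ne_zero)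
  have hMz : (-(M : ℤ)) ≠ 0 := by
    rw [neg_ne_zero]; exact_mod_cast hM0
  have hδ0 : δ ≠ 0 := by
    rintro rfl
    rw [zero_pow two_ne_zero] at hδ
    exact hMz (by exact_mod_cast hδ.symm)
  have hcase : ∀ s : GQ, s δ = δ ∨ s δ = -δ := by
    intro s
    apply sq_eq_sq_iff_eq_or_eq_neg.1
    rw [← map_pow, hδ, map_intCast]
  by_contra hcon
  push Not at hcon
  have hfix : ∀ s ∈ A.inertiaSubgroupIn ℚ, s δ = δ := fun s hs =>
    (hcase s).resolve_right (hcon s (rbE_good_inertia E hWE hN h2 hq hqN hA hs))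
  obtain ⟨n, hn⟩ := SEL.exists_valuation_zpow_of_inertia A hq hA hδ0 hfix
  have h1 : A.valuation (q : Qb) ^ (2 * n) =
      A.valuation (q : Qb) ^ ((padicValInt q (-(M : ℤ)) : ℕ) : ℤ) := by
    rw [zpow_natCast, ← ZEC.val_int hq hA hMz, ← hδ, map_pow, hn, mul_comm, zpow_mul]
    rfl
  have h0 : A.valuation (q : Qb) ≠ 0 := by
    rw [Valuation.ne_zero_iff]
    exact_mod_cast hq.ne_zero
  have h3 := ZEC.zpow_ne_self h0 hvq h1
  have h4 : padicValInt q (-(M : ℤ)) = 1 := by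
    have e1 : padicValInt q (-(M : ℤ)) = padicValNat q M := by
      rw [padicValInt, Int.natAbs_neg, Int.natAbs_natCast]
    have e2 : padicValNat q M = padicValNat q N + padicValNat q (∏ q ∈ Q, q) := by
      rw [hM]
      exact padicValNat.mul hN0 (Finset.prod_ne_zero_iff.2 fun p hp => (hQp p hp).1.ne_zero)
    have e3 : padicValNat q N = 0 := padicValNat.eq_zero_of_not_dvd hqN
    have e4 : padicValNat q (∏ q ∈ Q, q) = 1 := by
      have hsplit : ∏ q ∈ Q, q = q * ∏ p ∈ Q.erase q, p := (Finset.mul_prod_erase Q id hqQ).symm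
      have hne : ∏ p ∈ Q.erase q, p ≠ 0 :=
        Finset.prod_ne_zero_iff.2 fun p hp => (hQp p (Finset.mem_of_mem_erase hp)).1.ne_zero
      have hnd : ¬ q ∣ ∏ p ∈ Q.erase q, p := by
        intro h
        obtain ⟨p, hp, hqp⟩ := (hq.prime.dvd_finsetProd_iff _).1 h
        have := (Nat.prime_dvd_prime_iff_eq hq (hQp p (Finset.mem_of_mem_erase hp)).1).1 hqp
        exact (Finset.ne_of_mem_erase hp) this.symm
      rw [hsplit, padicValNat.mul hq.ne_zero hne, padicValNat.self hq.one_lt,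
        padicValNat.eq_zero_of_not_dvd hnd]
    omega
  rw [h4] at h3
  push_cast at h3
  omega

omit hodd in
include hnr in
/-- **Z-PSI (iv)** -/
theorem exists_prime_not_isSquare {Q : Finset ℕ} (hQ : Q.Nonempty)
    (hQp : ∀ q ∈ Q, q.Prime ∧ ¬ q ∣ N) (S : Finset ℕ) :
    ∃ l : ℕ, l.Prime ∧ l ∉ S ∧ ¬ l ∣ N ∧ l ∉ Q ∧ l ≠ 2 ∧
      ¬ IsSquare (-((N * ∏ q ∈ Q, q : ℕ) : ZMod l)) ∧
      ∃ A : ValuationSubring Qb, A.LiesOverPrime l ∧
        ∃ Φ, A.IsFrobeniusAt Φ l ∧ (rbE E Φ).trace = 1 := by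
  have hN0 : N ≠ 0 := hNsq.ne_zero
  set M : ℕ := N * ∏ q ∈ Q, q with hM
  have hM0 : M ≠ 0 := mul_ne_zero hN0 (Finset.prod_ne_zero_iff.2 fun p hp => (hQp p hp).1.ne_zero)
  obtain ⟨δ, hδ⟩ := IsAlgClosed.exists_pow_nat_eq ((-(M : ℤ) : ℤ) : Qb) (n := 2) two_pos
  have hδ0 : δ ≠ 0 := by
    rintro rfl
    rw [zero_pow two_ne_zero] at hδ
    have h3 : (-(M : ℤ)) = 0 := by exact_mod_cast hδ.symm
    rw [neg_eq_zero] at h3
    exact hM0 (by exact_mod_cast h3)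
  have hne : δ ≠ -δ := by
    intro h
    apply hδ0
    have h3 : (2 : Qb) * δ = 0 := by linear_combination h
    exact (mul_eq_zero.mp h3).resolve_left two_ne_zero
  have hcase : ∀ s : GQ, s δ = δ ∨ s δ = -δ := by
    intro s
    apply sq_eq_sq_iff_eq_or_eq_neg.1
    rw [← map_pow, hδ, map_intCast]
  obtain ⟨g₀, -, -, hg₀⟩ := exists_trace_one E hWE hΔ hnr
  obtain ⟨s, hs1, hs⟩ := exists_move E hWE h2 hN hQ hQp hN0 hδ
  obtain ⟨g, hg, hgδ⟩ : ∃ g : GQ, (rbE E g).trace = 1 ∧ g δ = -δ := by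
    rcases hcase g₀ with h | h
    · refine ⟨g₀ * s, ?_, ?_⟩
      · rw [map_mul, hs1, mul_one, hg₀]
      · show g₀ (s δ) = -δ
        rw [hs, map_neg, h]
    · exact ⟨g₀, hg₀, h⟩
  have hfin : FiniteDimensional ℚ (IntermediateField.adjoin ℚ {δ}) :=
    IntermediateField.adjoin.finiteDimensional (Algebra.IsIntegral.isIntegral δ)
  obtain ⟨l, hl, hlS, A, hA, Φ, hΦ, hΦg, hΦδ⟩ := exists_frob_rbE E
    (IntermediateField.adjoin ℚ {δ}) hfin g (S ∪ M.primeFactors)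
  rw [Finset.mem_union, not_or, Nat.mem_primeFactors] at hlS
  have hlM : ¬ l ∣ M := fun h => hlS.2 ⟨hl, h, hM0⟩
  have hlN : ¬ l ∣ N := fun h => hlM (h.trans (dvd_mul_right _ _))
  have hl2 : l ≠ 2 := ne_two h2 hN hlN
  refine ⟨l, hl, hlS.1, hlN, fun hlQ => ?_, hl2, fun hsq => ?_, A, hA, Φ, hΦ, by rw [hΦg, hg]⟩
  · exact hlM ((Finset.dvd_prod_of_mem (fun q => q) hlQ).trans (dvd_mul_left _ _))
  · have h4 := hΦδ δ (IntermediateField.subset_adjoin ℚ _ (Set.mem_singleton δ))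
    rw [hgδ] at h4
    have h5 := (frob_sqrt (n := -(M : ℤ)) hl hl2 (by rw [dvd_neg]; exact_mod_cast hlM) hA hΦ hδ).2
      (by push_cast; exact_mod_cast hsq)
    exact hne (h5.symm.trans h4)

end EC

end Fermat.Agent.ZPsi
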