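import Fermat.Agent.ZPsi.Field
import Fermat.Agent.CFR.FrobConj
import Mathlib.NumberTheory.LegendreSymbol.Basic

/-!
# Frobenius elements and square roots
-/

set_option autoImplicit false

open scoped Pointwise

namespace Fermat.Agent.ZPsi

open Fermat.Agent.ZEC Fermat.Agent.CFR

local notation "Qb" => AlgebraicClosure ℚ
local notation "GQ" => AlgebraicClosure ℚ ≃ₐ[ℚ] AlgebraicClosure ℚ

section val

variable {A : ValuationSubring Qb} {l : ℕ}

theorem val_lt_one_iff (hl : l.Prime) (hA : A.LiesOverPrime l) (n : ℤ) :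
    A.valuation (n : Qb) < 1 ↔ (l : ℤ) ∣ n := by
  have hvq : A.valuation (l : Qb) < 1 := A.mem_nonunits_iff.mp hA
  constructor
  · intro h
    by_contra hcon
    rw [ERep.val_int_eq_one hl hvq hcon] at h
    exact lt_irrefl _ h
  · rintro ⟨k, rfl⟩
    push_cast
    rw [map_mul]
    refine mul_lt_one_of_lt_of_le hvq ?_
    have h1 : (k : Qb) ∈ A := intCast_mem A k
    exact (A.valuation_le_one_iff _).2 h1

theorem val_apply {σ : GQ} (hσ : σ • A = A) {x : Qb} (hx : A.valuation x < 1) :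
    A.valuation (σ x) < 1 := by
  rw [← ValuationSubring.mem_nonunits_iff] at hx ⊢
  rw [← hσ, PTC.mem_smul_nonunits]
  have : σ⁻¹ (σ x) = x := σ.symm_apply_apply x
  rwa [this]

theorem val_sub_lt {x y : Qb} (hx : A.valuation x < 1) (hy : A.valuation y < 1) :
    A.valuation (x - y) < 1 :=
  lt_of_le_of_lt (A.valuation.map_sub _ _) (max_lt hx hy)

theorem val_add_lt {x y : Qb} (hx : A.valuation x < 1) (hy : A.valuation y < 1) :
    A.valuation (x + y) < 1 :=
  lt_of_le_of_lt (A.valuation.map_add _ _) (max_lt hx hy)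

end val

/-- Frobenius elements fix `√n` exactly when `n` is a square modulo `l`. -/
theorem frob_sqrt {l : ℕ} (hl : l.Prime) (hl2 : l ≠ 2) {n : ℤ} (hn : ¬ (l : ℤ) ∣ n)
    {A : ValuationSubring Qb} (hA : A.LiesOverPrime l) {Φ : GQ} (hΦ : A.IsFrobeniusAt Φ l)
    {δ : Qb} (hδ : δ ^ 2 = (n : Qb)) : Φ δ = δ ↔ IsSquare ((n : ℤ) : ZMod l) := by
  have : Fact l.Prime := ⟨hl⟩
  have hvq : A.valuation (l : Qb) < 1 := A.mem_nonunits_iff.mp hA
  obtain ⟨hΦA, hΦ1⟩ := (isFrobeniusAt_iff A Φ l).1 hΦ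
  have hn1 : A.valuation (n : Qb) = 1 := ERep.val_int_eq_one hl hvq hn
  have hδ1 : A.valuation δ = 1 := by
    have h1 : A.valuation δ ^ 2 = 1 := by rw [← map_pow, hδ, hn1]
    exact (pow_eq_one_iff_of_nonneg zero_le two_ne_zero).1 h1
  have hδA : δ ∈ A := (A.valuation_le_one_iff _).1 hδ1.le
  have h2 : A.valuation (2 : Qb) = 1 := by
    have h3 : ¬ (l : ℤ) ∣ 2 := by
      intro h
      have h4 : l ∣ 2 := by exact_mod_cast h
      exact hl2 ((Nat.prime_dvd_prime_iff_eq hl Nat.prime_two).1 h4)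
    have := ERep.val_int_eq_one hl hvq h3
    exact_mod_cast this
  have hcase : Φ δ = δ ∨ Φ δ = -δ := by
    apply sq_eq_sq_iff_eq_or_eq_neg.1
    rw [← map_pow, hδ, map_intCast]
  constructor
  · intro h
    have h3 := hΦ1 δ hδA
    rw [ValuationSubring.mem_nonunits_iff, h] at h3
    -- `δ - δ^l`
    obtain ⟨k, hk⟩ := hl.odd_of_ne_two hl2
    have e : δ - δ ^ l = -(δ * ((n ^ k - 1 : ℤ) : Qb)) := by
      rw [hk, pow_succ, pow_mul, hδ]
      push_cast
      ring
    rw [e, Valuation.map_neg, map_mul, hδ1, one_mul, val_lt_one_iff hl hA] at h3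
    have h5 : ((n : ℤ) : ZMod l) ^ k = 1 := by
      have h6 := (ZMod.intCast_zmod_eq_zero_iff_dvd (n ^ k - 1) l).2 h3
      push_cast at h6
      exact sub_eq_zero.1 h6
    have hn0 : ((n : ℤ) : ZMod l) ≠ 0 := by
      rw [Ne, ZMod.intCast_zmod_eq_zero_iff_dvd]
      exact hn
    rw [ZMod.euler_criterion l hn0]
    have : l / 2 = k := by omega
    rw [this, h5]
  · rintro ⟨r, hr⟩
    -- `n ≡ r^2`
    have h3 : (l : ℤ) ∣ n - (r.val : ℤ) * (r.val : ℤ) := by
      rw [← ZMod.intCast_zmod_eq_zero_iff_dvd]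
      push_cast
      rw [ZMod.natCast_val, ZMod.cast_id', id, hr, sub_self]
    rw [← val_lt_one_iff hl hA] at h3
    have e : ((n - (r.val : ℤ) * (r.val : ℤ) : ℤ) : Qb) =
        (δ - ((r.val : ℤ) : Qb)) * (δ + ((r.val : ℤ) : Qb)) := by
      push_cast
      rw [← hδ]
      ring
    rw [e, map_mul] at h3
    rcases hcase with h | h
    · exact h
    exfalso
    -- `2 δ` would be a nonunit
    have key : ∀ s : ℤ, ¬ A.valuation (δ - (s : Qb)) < 1 := by
      intro s hs
      have h4 := val_apply hΦA hs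
      rw [map_sub, map_intCast, h] at h4
      have h5 := val_sub_lt hs h4
      have e : δ - (s : Qb) - (-δ - (s : Qb)) = 2 * δ := by ring
      rw [e, map_mul, h2, hδ1, one_mul] at h5
      exact lt_irrefl _ h5
    have k1 := key (r.val : ℤ)
    have k2 := key (-(r.val : ℤ))
    have e2 : δ - ((-(r.val : ℤ) : ℤ) : Qb) = δ + ((r.val : ℤ) : Qb) := by push_cast; ring
    rw [e2] at k2
    exact absurd h3 (not_lt.2 (one_le_mul_of_one_le_of_one_le (not_lt.1 k1) (not_lt.1 k2)))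

end Fermat.Agent.ZPsi
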