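import Fermat.Agent.ZPsi.Sqrt
import Fermat.Agent.ZSel.EC
import Fermat.Agent.CFR.Psi

/-!
# The cubic character of `ℚ(√-N)` attached to the `2`-torsion
-/

set_option autoImplicit false

open Module NumberField
open scoped Pointwise nonZeroDivisors

namespace Fermat.Agent.ZPsi

open Fermat.Agent.ZThm (M2)
open Fermat.Agent.ZEC (rbE)

local notation "Qb" => AlgebraicClosure ℚ
local notation "GQ" => AlgebraicClosure ℚ ≃ₐ[ℚ] AlgebraicClosure ℚ

/-- discrete logarithm -/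
def oM (m : M2 (ZMod 2)) : ZMod 3 := if m = 1 then 0 else if m = !![0, 1; 1, 1] then 1 else 2

theorem oM_mul : ∀ m n : M2 (ZMod 2), m ^ 3 = 1 → n ^ 3 = 1 → oM (m * n) = oM m + oM n := by
  decide +kernel

theorem oM_one : oM 1 = 0 := by decide +kernel

theorem oM_eq_zero : ∀ m : M2 (ZMod 2), oM m = 0 ↔ m = 1 := by decide +kernel

theorem trace_cube : ∀ m : M2 (ZMod 2), m ^ 3 = 1 → m.trace = if m = 1 then 0 else 1 := by
  decide +kernel

theorem trace_ncube : ∀ m : M2 (ZMod 2), m.det = 1 → m ^ 3 ≠ 1 → m.trace = 0 := by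
  decide +kernel

theorem oM_conj : ∀ m n : M2 (ZMod 2), m.det = 1 → m ^ 3 ≠ 1 → n ^ 3 = 1 →
    m * m = 1 ∧ oM (m * n * m) = -oM n := by
  decide +kernel

theorem cube_fix : ∀ (m : M2 (ZMod 2)) (v : Fin 2 → ZMod 2), m ^ 3 = 1 → v ≠ 0 →
    m.mulVec v = v → m = 1 := by
  decide +kernel

section EC

variable (E : WeierstrassCurve ℚ) [E.IsElliptic] {W : WeierstrassCurve ℤ}
  (hWE : W.IsIntegralModelOf E) (hΔ : W.Δ < 0)
  (hodd : ∀ l : ℕ, l.Prime → (l : ℤ) ∣ W.Δ → Odd (padicValInt l W.Δ))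
  {N : ℕ} (hNsq : Squarefree N) (hN : ∀ l : ℕ, l.Prime → (l ∣ N ↔ (l : ℤ) ∣ W.Δ))

/-- the cubic character -/
noncomputable def thE : (KN N).fixingSubgroup →* Multiplicative (ZMod 3) where
  toFun g := Multiplicative.ofAdd (oM (rbE E g.1))
  map_one' := by
    show Multiplicative.ofAdd (oM (rbE E 1)) = 1
    rw [map_one, oM_one, ofAdd_zero]
  map_mul' a b := by
    show Multiplicative.ofAdd (oM (rbE E (a.1 * b.1))) = _
    rw [map_mul, oM_mul _ _ ((fix_iff_cube E hWE hΔ hodd hNsq hN a.1).1 a.2)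
      ((fix_iff_cube E hWE hΔ hodd hNsq hN b.1).1 b.2), ofAdd_add]

theorem thE_apply (g : (KN N).fixingSubgroup) :
    thE E hWE hΔ hodd hNsq hN g = Multiplicative.ofAdd (oM (rbE E g.1)) := rfl

theorem thE_eq_one (g : (KN N).fixingSubgroup) :
    thE E hWE hΔ hodd hNsq hN g = 1 ↔ rbE E g.1 = 1 := by
  rw [thE_apply, ofAdd_eq_one, oM_eq_zero]

theorem thE_smooth : CFR.SmoothCh (thE E hWE hΔ hodd hNsq hN) := by
  obtain ⟨L, hL, h⟩ := ZEC.rbE_smooth E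
  refine ⟨L, hL, fun σ hσ hσL => ?_⟩
  rw [thE_eq_one]
  exact h σ ((IntermediateField.mem_fixingSubgroup_iff _ _).1 hσL)

theorem thE_dih : CFR.DihCh (thE E hWE hΔ hodd hNsq hN) := by
  intro g hg u hu hgu
  rw [thE_apply, thE_apply, ← ofAdd_neg]
  congr 1
  have hg3 : (rbE E g) ^ 3 ≠ 1 := fun h => hg ((fix_iff_cube E hWE hΔ hodd hNsq hN g).2 h)
  have hu3 := (fix_iff_cube E hWE hΔ hodd hNsq hN u).1 hu
  obtain ⟨h1, h2⟩ := oM_conj _ _ (ZEC.rbE_det E g) hg3 hu3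
  have h3 : rbE E g⁻¹ = rbE E g := by
    have h4 : rbE E g * rbE E g⁻¹ = 1 := by rw [← map_mul, mul_inv_cancel, map_one]
    calc rbE E g⁻¹ = (rbE E g * rbE E g) * rbE E g⁻¹ := by rw [h1, one_mul]
      _ = rbE E g := by rw [mul_assoc, h4, mul_one]
  show oM (rbE E (g * u * g⁻¹)) = _
  rw [map_mul, map_mul, h3, h2]

section unr

variable (hss : ∀ l : ℕ, l.Prime → (l : ℤ) ∣ W.Δ → ¬ (l : ℤ) ∣ W.c₄)

include hWE hodd hss in
/-- decomposition groups at bad primes fix a nonzero vector -/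
theorem exists_fixed {l : ℕ} (hl : l.Prime) (hlΔ : (l : ℤ) ∣ W.Δ) {A : ValuationSubring Qb}
    (hA : A.LiesOverPrime l) : ∃ v : Fin 2 → ZMod 2, v ≠ 0 ∧
      ∀ s ∈ A.decompositionSubgroup ℚ, (rbE E s).mulVec v = v := by
  obtain ⟨g₀, -, -, -, hg₀⟩ := ZEC.exists_inertia_rbE E hWE hl hA (hodd l hl hlΔ)
  have hns := ZEC.nonScalar_of_rbE E hg₀
  obtain ⟨e, z, he, hz, h⟩ : ∃ (e : Fin 2 → ℤ_[2]) (z : GQ → ℤ), (∃ i, IsUnit (e i)) ∧
      (∀ s ∈ A.decompositionSubgroup ℚ, z s = 1 ∨ z s = -1) ∧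
      ∀ s ∈ A.decompositionSubgroup ℚ,
        ERep.repE E 2 s e = ((z s : ℤ_[2]) * ERep.cycE 2 s) • e := by
    by_cases hl2 : l = 2
    · subst hl2
      obtain ⟨e, φ, z, he, -, -, hz, -, -, -, h⟩ := ZEC.exists_line E hWE hA
        (by exact_mod_cast hlΔ) (by exact_mod_cast hss 2 hl hlΔ) hns
      exact ⟨e, z, he, hz, h⟩
    · obtain ⟨e, φ, z, he, -, -, hz, -, -, -, h⟩ := ZEC.exists_line_odd E hWE hl hl2 hA hlΔ
        (hss l hl hlΔ) hns
      exact ⟨e, z, he, hz, h⟩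
  refine ⟨ZEC.redv e, ?_, fun s hs => ?_⟩
  · intro h0
    obtain ⟨i, hi⟩ := he
    have h1 := congrFun h0 i
    have h2 := hi.map (PadicInt.toZMod (p := 2))
    have h3 : PadicInt.toZMod (p := 2) (e i) = 0 := h1
    rw [h3] at h2
    exact not_isUnit_zero h2
  · rw [← ZEC.redv_rep, h s hs]
    funext i
    show PadicInt.toZMod (((z s : ℤ_[2]) * ERep.cycE 2 s) * e i) = PadicInt.toZMod (e i)
    have hu : IsUnit ((z s : ℤ_[2]) * ERep.cycE 2 s) := by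
      refine IsUnit.mul ?_ ?_
      · rcases hz s hs with h1 | h1 <;> rw [h1] <;> simp
      · have h2 : ERep.cycE 2 s * ERep.cycE 2 s⁻¹ = 1 := by
          rw [← map_mul, mul_inv_cancel, map_one]
        exact IsUnit.of_mul_eq_one _ h2
    have h4 : ∀ y : ZMod 2, IsUnit y → y = 1 := by decide
    rw [map_mul, h4 _ (hu.map (PadicInt.toZMod (p := 2))), one_mul]

include hWE hN in
theorem rbE_good_inertia (h2 : (2 : ℤ) ∣ W.Δ) {l : ℕ} (hl : l.Prime) (hlN : ¬ l ∣ N)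
    {A : ValuationSubring Qb} (hA : A.LiesOverPrime l) {s : GQ}
    (hs : s ∈ A.inertiaSubgroupIn ℚ) : rbE E s = 1 := by
  have hg : W.IsGoodPrimeFor l := fun h => hlN ((hN l hl).2 h)
  have hℓ2 : l ≠ 2 := by
    rintro rfl
    exact hlN ((hN 2 Nat.prime_two).2 (by exact_mod_cast h2))
  exact ZSel.rbE_one_of E (ERep.repE_inertia_good E 2 hWE hl hA hℓ2 hg hs)

include hss in
theorem thE_unr (h2 : (2 : ℤ) ∣ W.Δ) : CFR.UnrCh (thE E hWE hΔ hodd hNsq hN) := by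
  intro q hq A hA σ hσ hσK
  rw [thE_eq_one]
  by_cases hqN : q ∣ N
  · obtain ⟨v, hv, h⟩ := exists_fixed E hWE hodd hss hq ((hN q hq).1 hqN) hA
    exact cube_fix _ v ((fix_iff_cube E hWE hΔ hodd hNsq hN σ).1 hσK) hv
      (h σ (ZSel.mem_decomp_of_inertia hσ))
  · exact rbE_good_inertia E hWE hN h2 hq hqN hA hσ

end unr

end EC

end Fermat.Agent.ZPsi
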